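import Fermat.Agent.A2.IF.H429.IF

/-!
# S36 ENGINE, leaf UNR (helper189): the inertia field is an unramified good level

`unramified_inertiaField` : for a prime `q` and a valuation subring `P` of `ℚ̄` over `q`, the
inertia field `E = ℚ̄^{I_P}` is a good level for `P` (`A2.GoodField`: `P ∩ E` is a henselian DVR
with algebraically closed residue field, inertia acts trivially) and `q` is a uniformiser of
`P ∩ E`:  every `e ∈ E ∩ 𝔪_P` satisfies `e / q ∈ P`.

This is `Fermat.Agent.S36.Eng.InertiaFieldStatement` (architect helper996, `S36/Eng/Top.lean`)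
with `Eng.Unramified` and `Eng.inertiaFld` unfolded; the file imports only `A2/IF/H429`
(Hilbert theory at finite level: `exists_zpow_of_mem_inertiaField`).
-/

set_option autoImplicit false

namespace Fermat.Agent.S36.Eng.H189

open Fermat.Agent.A2 Fermat.Agent.A2.IF.H429

/-- The inertia field (same term as `A2.IF.H429.inertiaField P` and `S36.Eng.inertiaFld P`). -/
theorem inertiaField_eq_fixedField (P : ValuationSubring Qb) :
    inertiaField P = IntermediateField.fixedField (P.inertiaSubgroupIn ℚ) := rfl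

/-- The inertia field is a good level. -/
theorem goodField_inertiaField (q : ℕ) (hq : q.Prime) (P : ValuationSubring Qb)
    (hP : P.LiesOverPrime q) : GoodField P (inertiaField P) where
  stable := fun τ hτ e he => by
    rw [(mem_inertiaField_iff P).mp he τ hτ]
    exact he
  dvr := isDiscreteValuationRing_RE_of_pow P q hq hP (inertiaField P) 1 one_pos
    (fun x hx hx0 => by
      obtain ⟨k, hk⟩ := exists_zpow_of_mem_inertiaField P q hq hP x hx hx0
      refine ⟨k, ?_⟩
      have hq0 : P.valuation (q : Qb) ≠ 0 := valuation_natCast_ne_zero P q hq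
      rw [map_div₀, map_zpow₀] at hk
      rw [pow_one]
      have hz : P.valuation (q : Qb) ^ k ≠ 0 := zpow_ne_zero _ hq0
      exact (div_eq_one_iff_eq hz).mp hk)
  henselian := henselian_RE P (inertiaField P) le_rfl
  algClosed := isAlgClosed_residueField_RE P (inertiaField P) q hq hP le_rfl
  trivial_mod := fun _ hτ _ _ heP => sub_mem_nonunits_of_inertia P hτ heP
  finite_order := fun τ hτ => ⟨1, one_pos, fun e he => by
    rw [Function.iterate_one]
    exact (mem_inertiaField_iff P).mp he τ hτ⟩

/-- `q` is a uniformiser of `P ∩ ℚ̄^{I_P}`: every element of the inertia field lying in the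
maximal ideal of `P` is divisible by `q` in `P`. -/
theorem mul_inv_natCast_mem (q : ℕ) (hq : q.Prime) (P : ValuationSubring Qb)
    (hP : P.LiesOverPrime q) (e : Qb) (he : e ∈ inertiaField P) (hem : e ∈ P.nonunits) :
    e * (q : Qb)⁻¹ ∈ P := by
  rcases eq_or_ne e 0 with rfl | he0
  · rw [zero_mul]
    exact zero_mem P
  obtain ⟨k, hk⟩ := exists_zpow_of_mem_inertiaField P q hq hP e he he0
  have hq0 : P.valuation (q : Qb) ≠ 0 := valuation_natCast_ne_zero P q hq
  have hqlt : P.valuation (q : Qb) < 1 := valuation_natCast_lt_one P q hP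
  have hz : P.valuation (q : Qb) ^ k ≠ 0 := zpow_ne_zero _ hq0
  rw [map_div₀, map_zpow₀] at hk
  have hek : P.valuation e = P.valuation (q : Qb) ^ k := (div_eq_one_iff_eq hz).mp hk
  have helt : P.valuation e < 1 := (ValuationSubring.mem_nonunits_iff (A := P)).mp hem
  -- `k ≥ 1`
  have hk1 : 1 ≤ k := by
    by_contra hcon
    have hk0 : k ≤ 0 := by omega
    have h1 : 1 ≤ P.valuation (q : Qb) ^ k := by
      obtain ⟨n, hn⟩ : ∃ n : ℕ, k = -(n : ℤ) := ⟨(-k).toNat, by omega⟩
      rw [hn, zpow_neg, zpow_natCast]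
      have h2 : P.valuation (q : Qb) ^ n ≤ 1 := pow_le_one' hqlt.le n
      have h3 : P.valuation (q : Qb) ^ n ≠ 0 := pow_ne_zero _ hq0
      exact (one_le_inv₀ (zero_lt_iff.mpr h3)).mpr h2
    rw [← hek] at h1
    exact absurd helt (not_lt.mpr h1)
  rw [← ValuationSubring.valuation_le_one_iff, map_mul, map_inv₀, hek]
  obtain ⟨n, hn⟩ : ∃ n : ℕ, k = (n : ℤ) + 1 := ⟨(k - 1).toNat, by omega⟩
  rw [hn, zpow_add_one₀ hq0, zpow_natCast, mul_assoc, mul_inv_cancel₀ hq0, mul_one]
  exact pow_le_one' hqlt.le n

/-- **UNR** (= `S36.Eng.InertiaFieldStatement`, unfolded).  The inertia field of a place `P` over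
`q` is an unramified good level. -/
theorem unramified_inertiaField :
    ∀ q : ℕ, q.Prime → ∀ P : ValuationSubring Qb, P.LiesOverPrime q →
      GoodField P (IntermediateField.fixedField (P.inertiaSubgroupIn ℚ)) ∧
        ∀ e : (IntermediateField.fixedField (P.inertiaSubgroupIn ℚ) : IntermediateField ℚ Qb),
          (e : Qb) ∈ P.nonunits → (e : Qb) * ((q : Qb))⁻¹ ∈ P :=
  fun q hq P hP => ⟨goodField_inertiaField q hq P hP,
    fun e hem => mul_inv_natCast_mem q hq P hP (e : Qb) e.2 hem⟩

end Fermat.Agent.S36.Eng.H189
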